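import Mathlib.NumberTheory.ModularForms.QExpansion
import Mathlib.Analysis.Complex.HasPrimitives
import Mathlib.Analysis.Complex.RemovableSingularity
import Mathlib.NumberTheory.ModularForms.Cusps
import Fermat.Prelude.Def_ModularCurve_PeriodHomPair

/-!
# Primitives of weight two cusp forms on `Γ₀(N)`

Existence and uniqueness of primitives, linearity of the period map and parabolicity of the
periods.
-/

set_option autoImplicit false

noncomputable section

open UpperHalfPlane hiding I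
open Complex Filter Topology CongruenceSubgroup ModularCurve ModularCurve.Period
open scoped MatrixGroups Manifold ModularForm Real

namespace Fermat.Agent.EichlerShimura

local notation "𝕢" => Function.Periodic.qParam

/-- `G` is a primitive of `g` on the upper half plane. -/
def IsPrim (g G : ℍ → ℂ) : Prop :=
  ∀ τ : ℍ, HasDerivAt (G ∘ ofComplex) (g τ) ↑τ

/-- Two primitives differ by a constant. -/
theorem IsPrim.eq_add_const {g G₁ G₂ : ℍ → ℂ} (h₁ : IsPrim g G₁) (h₂ : IsPrim g G₂) :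
    ∃ c : ℂ, ∀ τ, G₁ τ = G₂ τ + c := by
  set φ : ℂ → ℂ := fun z => G₁ (ofComplex z) - G₂ (ofComplex z) with hφ
  have hd : ∀ z ∈ {z : ℂ | 0 < z.im}, HasDerivAt φ 0 z := fun z hz => by
    have := (h₁ ⟨z, hz⟩).sub (h₂ ⟨z, hz⟩)
    rw [sub_self] at this
    exact this
  refine ⟨G₁ UpperHalfPlane.I - G₂ UpperHalfPlane.I, fun τ => ?_⟩
  have := isOpen_upperHalfPlaneSet.is_const_of_deriv_eq_zero
    (convex_halfSpace_im_gt 0).isPreconnected
    (fun z hz => (hd z hz).differentiableAt.differentiableWithinAt)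
    (fun z hz => (hd z hz).deriv) τ.im_pos UpperHalfPlane.I.im_pos
  simp only [hφ, ofComplex_apply] at this
  linear_combination this

theorem IsPrim.eq_of_tendsto {g G₁ G₂ : ℍ → ℂ} (h₁ : IsPrim g G₁) (h₂ : IsPrim g G₂) {L : ℂ}
    (l₁ : Tendsto G₁ atImInfty (𝓝 L)) (l₂ : Tendsto G₂ atImInfty (𝓝 L)) : G₁ = G₂ := by
  obtain ⟨c, hc⟩ := h₁.eq_add_const h₂
  have : Tendsto G₁ atImInfty (𝓝 (L + c)) := by
    rw [show G₁ = fun τ => G₂ τ + c from funext hc]
    exact l₂.add_const c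
  have hc0 : c = 0 := by simpa using tendsto_nhds_unique this l₁
  exact funext fun τ => by simp [hc τ, hc0]

/-- The sum of primitives is a primitive of the sum. -/
theorem IsPrim.add {g h G H : ℍ → ℂ} (h₁ : IsPrim g G) (h₂ : IsPrim h H) :
    IsPrim (g + h) (G + H) := fun τ => (h₁ τ).add (h₂ τ)

/-- Primitives commute with scalars. -/
theorem IsPrim.const_smul {g G : ℍ → ℂ} (a : ℂ) (h₁ : IsPrim g G) : IsPrim (a • g) (a • G) :=
  fun τ => (h₁ τ).const_smul a

/-- Translating a primitive gives a primitive of the slashed function. -/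
theorem IsPrim.comp_smul {g G : ℍ → ℂ} (hG : IsPrim g G) (γ : SL(2, ℤ)) :
    IsPrim (g ∣[(2 : ℤ)] γ) (fun τ => G (γ • τ)) := by
  intro τ
  have hdet1 : ((γ : GL (Fin 2) ℝ) : Matrix (Fin 2) (Fin 2) ℝ).det = 1 :=
    (Matrix.SpecialLinearGroup.map (Int.castRingHom ℝ) γ).det_coe
  have hdet : (0 : ℝ) < ((γ : GL (Fin 2) ℝ) : Matrix (Fin 2) (Fin 2) ℝ).det := by
    rw [hdet1]; exact one_pos
  have h1 := (hasStrictDerivAt_smul (g := (γ : GL (Fin 2) ℝ)) hdet τ).hasDerivAt
  have h2 : HasDerivAt (G ∘ ofComplex) (g (γ • τ))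
      ((fun z => ↑((γ : GL (Fin 2) ℝ) • ofComplex z) : ℂ → ℂ) ↑τ) := by
    simp only [ofComplex_apply]
    exact hG (γ • τ)
  have h3 := h2.comp (↑τ : ℂ) h1
  have h4 : HasDerivAt ((fun σ => G (γ • σ)) ∘ ofComplex)
      (g (γ • τ) * ((((γ : GL (Fin 2) ℝ) : Matrix (Fin 2) (Fin 2) ℝ).det : ℂ)
        / denom (γ : GL (Fin 2) ℝ) τ ^ 2)) ↑τ := by
    refine h3.congr_of_eventuallyEq (Eventually.of_forall fun z => ?_)
    simp only [Function.comp_apply, ofComplex_apply]
    rfl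
  convert h4 using 1
  rw [ModularForm.SL_slash_apply, hdet1]
  simp [zpow_neg, div_eq_mul_inv, zpow_ofNat]

/-- Primitives are holomorphic. -/
theorem isPrim_mdifferentiable {g G : ℍ → ℂ} (hG : IsPrim g G) : MDiff G :=
  UpperHalfPlane.mdifferentiable_iff.mpr fun z hz =>
    (hG ⟨z, hz⟩).differentiableAt.differentiableWithinAt

/-- A periodic holomorphic function vanishing at `i∞` has a primitive vanishing at `i∞`. -/
theorem exists_prim_of_periodic {g : ℍ → ℂ} {h : ℝ} (hh : 0 < h)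
    (hper : Function.Periodic (g ∘ ofComplex) h) (hhol : MDiff g) (hzero : IsZeroAtImInfty g) :
    ∃ G, IsPrim g G ∧ Tendsto G atImInfty (𝓝 0) := by
  set φ := cuspFunction h g with hφdef
  have hφ : DifferentiableOn ℂ φ (Metric.ball 0 1) :=
    differentiableOn_cuspFunction_ball hh hper hhol hzero.isBoundedAtImInfty
  have hφ0 : φ 0 = 0 := IsZeroAtImInfty.cuspFunction_apply_zero hzero hh
  obtain ⟨Ψ, hΨ0, hΨ⟩ := ((differentiableOn_dslope
    (Metric.ball_mem_nhds (0 : ℂ) one_pos)).mpr hφ).isExactOn_ball.with_val_at 0 (0 : ℂ)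
  refine ⟨fun τ => (h : ℂ) / (2 * π * I) * Ψ (𝕢 h τ), fun τ => ?_, ?_⟩
  · have hq : 𝕢 h τ ∈ Metric.ball (0 : ℂ) 1 :=
      mem_ball_zero_iff.mpr (Function.Periodic.norm_qParam_lt_one hh τ.im_pos)
    have hdq : HasDerivAt (𝕢 h) (𝕢 h τ * (2 * π * I / h)) (τ : ℂ) := by
      have := (((hasDerivAt_id (τ : ℂ)).const_mul (2 * π * I)).div_const (h : ℂ)).cexp
      simpa [Function.Periodic.qParam, id] using! this
    have key := ((hΨ _ hq).comp (τ : ℂ) hdq).const_mul ((h : ℂ) / (2 * π * I))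
    have heq : g τ = (h : ℂ) / (2 * π * I) *
        (dslope φ 0 (𝕢 h τ) * (𝕢 h τ * (2 * π * I / h))) := by
      have e1 : 𝕢 h τ * dslope φ 0 (𝕢 h τ) = g τ := by
        have := sub_smul_dslope φ 0 (𝕢 h τ)
        rw [sub_zero, hφ0, sub_zero, smul_eq_mul] at this
        rw [this, hφdef, eq_cuspFunction τ hh.ne' hper]
      rw [← e1]
      have : (h : ℂ) ≠ 0 := by exact_mod_cast hh.ne'
      have := two_pi_I_ne_zero
      field_simp
    rw [heq]
    refine key.congr_of_eventuallyEq ?_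
    filter_upwards [isOpen_upperHalfPlaneSet.mem_nhds τ.im_pos] with z hz
    simp [Function.comp_apply, ofComplex_apply_of_im_pos hz]
  · have h1 : Tendsto (fun τ : ℍ => Ψ (𝕢 h τ)) atImInfty (𝓝 (Ψ 0)) :=
      ((hΨ 0 (Metric.mem_ball_self one_pos)).continuousAt.tendsto).comp
        (qParam_tendsto_atImInfty hh)
    simpa [hΨ0] using h1.const_mul ((h : ℂ) / (2 * π * I))

/-- Conjugates of `T ^ N` lie in `Γ₀(N)`. -/
theorem conj_T_pow_mem_Gamma0 (N : ℕ) (δ : SL(2, ℤ)) :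
    δ * ModularGroup.T ^ (N : ℤ) * δ⁻¹ ∈ Gamma0 N := by
  have hT : ModularGroup.T ^ (N : ℤ) ∈ Gamma N := by
    rw [Gamma_mem, ModularGroup.coe_T_zpow]
    simp
  have := (Gamma_normal N).conj_mem _ hT δ
  rw [Gamma_mem] at this
  exact Gamma0_mem.mpr this.2.2.1

theorem slash_Gamma0 {N : ℕ} {k : ℤ} {F : Type*} [FunLike F ℍ ℂ]
    [SlashInvariantFormClass F (Gamma0 N) k] (f : F) {γ : SL(2, ℤ)} (hγ : γ ∈ Gamma0 N) :
    (f : ℍ → ℂ) ∣[k] γ = f := by
  rw [ModularForm.SL_slash]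
  exact SlashInvariantFormClass.slash_action_eq f _ ⟨γ, hγ, rfl⟩

theorem periodic_slash {N : ℕ} {k : ℤ} {F : Type*} [FunLike F ℍ ℂ]
    [SlashInvariantFormClass F (Gamma0 N) k] (f : F) (δ : SL(2, ℤ)) :
    Function.Periodic (((f : ℍ → ℂ) ∣[k] δ) ∘ ofComplex) (N : ℝ) := by
  have hinv : ((f : ℍ → ℂ) ∣[k] δ) ∣[k] (ModularGroup.T ^ (N : ℤ)) = (f : ℍ → ℂ) ∣[k] δ := by
    rw [← SlashAction.slash_mul,
      show δ * ModularGroup.T ^ (N : ℤ)
        = (δ * ModularGroup.T ^ (N : ℤ) * δ⁻¹) * δ by group,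
      SlashAction.slash_mul, slash_Gamma0 f (conj_T_pow_mem_Gamma0 N δ)]
  intro w
  by_cases hw : 0 < w.im
  · have hw' : 0 < (w + ((N : ℝ) : ℂ)).im := by simpa using hw
    simp only [Function.comp_apply, ofComplex_apply_of_im_pos hw, ofComplex_apply_of_im_pos hw']
    have := congrFun hinv ⟨w, hw⟩
    rw [ModularForm.SL_slash_apply (γ := ModularGroup.T ^ (N : ℤ))] at this
    have hd : ∀ n : ℤ, denom ((ModularGroup.T ^ n : SL(2, ℤ)) : GL (Fin 2) ℝ) (w : ℂ) = 1 := by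
      intro n
      simp [denom, ModularGroup.coe_T_zpow, -map_zpow]
    rw [← this, modular_T_zpow_smul, UpperHalfPlane.coe_mk, hd, one_zpow, mul_one]
    refine congrArg _ (UpperHalfPlane.ext ?_)
    simp [add_comm]
  · have hw' : (w + ((N : ℝ) : ℂ)).im ≤ 0 := by simpa using hw
    simp only [Function.comp_apply, ofComplex_apply_of_im_nonpos hw',
      ofComplex_apply_of_im_nonpos (not_lt.mp hw)]

/-- A cusp form vanishes at every cusp. -/
theorem isZeroAtImInfty_slash {N : ℕ} [NeZero N] {k : ℤ} (f : CuspForm (Gamma0 N) k)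
    (δ : SL(2, ℤ)) : IsZeroAtImInfty ((f : ℍ → ℂ) ∣[k] δ) := by
  have hc : IsCusp ((δ : GL (Fin 2) ℝ) • OnePoint.infty)
      ((Gamma0 N : Subgroup SL(2, ℤ)) : Subgroup (GL (Fin 2) ℝ)) :=
    (Subgroup.IsArithmetic.isCusp_iff_isCusp_SL2Z _).mpr (isCusp_SL2Z_iff'.mpr ⟨δ, rfl⟩)
  have := f.zero_at_cusps' hc (δ : GL (Fin 2) ℝ) rfl
  rw [ModularForm.SL_slash]
  exact this

section

variable (N : ℕ) [NeZero N]

theorem exists_prim_slash (f : CuspForm (Gamma0 N) 2) (δ : SL(2, ℤ)) :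
    ∃ G, IsPrim ((f : ℍ → ℂ) ∣[(2 : ℤ)] δ) G ∧ Tendsto G atImInfty (𝓝 0) := by
  refine exists_prim_of_periodic (h := (N : ℝ)) (by exact_mod_cast NeZero.pos N)
    (periodic_slash f δ) ?_ (isZeroAtImInfty_slash f δ)
  rw [ModularForm.SL_slash]
  exact (CuspFormClass.holo f).slash 2 _

/-- A weight two cusp form has a primitive with a limit at every cusp. -/
theorem exists_primitive (f : CuspForm (Gamma0 N) 2) :
    ∃ F, HasEquivariantPrimitive N f F := by
  obtain ⟨F, hF, hF0⟩ := exists_prim_slash N f 1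
  rw [SlashAction.slash_one] at hF
  refine ⟨F, hF, hF0, fun γ => ?_, fun δ => ?_⟩
  · have h := hF.comp_smul (γ : SL(2, ℤ))
    rw [slash_Gamma0 f γ.2] at h
    obtain ⟨c, hc⟩ := h.eq_add_const hF
    exact ⟨c, fun z => by rw [hc z]; ring⟩
  · obtain ⟨G, hG, hG0⟩ := exists_prim_slash N f δ
    obtain ⟨c, hc⟩ := (hF.comp_smul δ).eq_add_const hG
    exact ⟨0 + c, (hG0.add_const c).congr fun τ => (hc τ).symm⟩

omit [NeZero N] in
theorem periodMap_eq (f : CuspForm (Gamma0 N) 2) {F : ℍ → ℂ}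
    (hF : HasEquivariantPrimitive N f F) : periodMap N f = hF.2.2.1.periodHom := by
  obtain ⟨F₀, h₀, e⟩ := periodMap_def N f hF
  obtain rfl : F₀ = F := IsPrim.eq_of_tendsto h₀.1 hF.1 h₀.2.1 hF.2.1
  exact e

omit [NeZero N] in
/-- The period map is the difference of any equivariant primitive. -/
theorem periodMap_apply (f : CuspForm (Gamma0 N) 2) {F : ℍ → ℂ}
    (hF : HasEquivariantPrimitive N f F) (γ : Gamma0 N) (z : ℍ) :
    periodMap N f (Additive.ofMul γ) = F ((γ : SL(2, ℤ)) • z) - F z := by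
  rw [periodMap_eq N f hF, IsEquivariantPrimitive.periodHom_apply,
    IsEquivariantPrimitive.sub_eq_period]

/-- The period map is linear. -/
theorem existsPeriodMapLinear : ExistsPeriodMapLinear N := by
  choose F hF using exists_primitive N
  refine ⟨{ toFun := periodMap N, map_add' := fun f g => ?_, map_smul' := fun a f => ?_ },
    fun f => rfl⟩
  · have e : F (f + g) = F f + F g := IsPrim.eq_of_tendsto (hF _).1
      (IsPrim.add (hF f).1 (hF g).1) (hF _).2.1 (by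
        simpa using! (hF f).2.1.add (hF g).2.1)
    refine AddMonoidHom.ext fun γ => ?_
    rw [AddMonoidHom.add_apply, ← ofMul_toMul γ,
      periodMap_apply N _ (hF _) _ UpperHalfPlane.I, periodMap_apply N _ (hF f) _ UpperHalfPlane.I,
      periodMap_apply N _ (hF g) _ UpperHalfPlane.I, e]
    simp only [Pi.add_apply]
    ring
  · have e : F (a • f) = a • F f := IsPrim.eq_of_tendsto (hF _).1
      (IsPrim.const_smul a (hF f).1) (hF _).2.1 (by
        simpa using! (hF f).2.1.const_smul a)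
    refine AddMonoidHom.ext fun γ => ?_
    rw [RingHom.id_apply, AddMonoidHom.smul_apply, ← ofMul_toMul γ,
      periodMap_apply N _ (hF _) _ UpperHalfPlane.I, periodMap_apply N _ (hF f) _ UpperHalfPlane.I,
      e]
    simp [mul_sub]

end

/-- An element of `SL(2, ℤ)` of squared trace `4` is conjugate to `± T ^ n`. -/
theorem exists_conj_eq_T_zpow (γ : SL(2, ℤ))
    (h : (γ : Matrix (Fin 2) (Fin 2) ℤ).trace ^ 2 = 4) :
    ∃ (δ : SL(2, ℤ)) (n : ℤ), γ = δ * ModularGroup.T ^ n * δ⁻¹ ∨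
      γ = -(δ * ModularGroup.T ^ n * δ⁻¹) := by
  wlog htr : (γ : Matrix (Fin 2) (Fin 2) ℤ).trace = 2 generalizing γ with H
  · have h2 : (γ : Matrix (Fin 2) (Fin 2) ℤ).trace = -2 := by
      rcases sq_eq_sq_iff_eq_or_eq_neg.mp (h.trans (by norm_num : (4 : ℤ) = 2 ^ 2)) with e | e
      · exact absurd e htr
      · exact e
    obtain ⟨δ, n, e⟩ := H (-γ) (by rw [Matrix.SpecialLinearGroup.coe_neg, Matrix.trace_neg,
      neg_sq, h]) (by rw [Matrix.SpecialLinearGroup.coe_neg, Matrix.trace_neg, h2]; norm_num)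
    exact ⟨δ, n, e.symm.imp (fun e => neg_inj.mp e) (fun e => neg_eq_iff_eq_neg.mp e)⟩
  have hdet := γ.det_coe
  rw [Matrix.det_fin_two] at hdet
  rw [Matrix.trace_fin_two] at htr
  by_cases hc : γ 1 0 = 0
  · refine ⟨1, γ 0 1, Or.inl ?_⟩
    have hsq : (γ 0 0 - 1) ^ 2 = 0 := by
      linear_combination (-1 : ℤ) * hdet + γ 0 0 * htr - γ 0 1 * hc
    have ha : γ 0 0 = 1 := by linarith [pow_eq_zero_iff (two_ne_zero) |>.mp hsq]
    have hd : γ 1 1 = 1 := by linarith
    simp only [one_mul, inv_one, mul_one]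
    ext i j
    rw [ModularGroup.coe_T_zpow]
    fin_cases i <;> fin_cases j <;> simp [ha, hd, hc]
  obtain ⟨g, p, r, hg, hco, hp, hr⟩ := Int.exists_gcd_one' (m := γ 0 0 - 1) (n := γ 1 0)
    (Int.gcd_pos_of_ne_zero_right _ hc)
  have hg' : (g : ℤ) ≠ 0 := by exact_mod_cast hg.ne'
  have k1 : γ 0 0 * p + γ 0 1 * r = p := by
    apply mul_right_cancel₀ hg'
    linear_combination (-(γ 0 0) + 1) * hp - γ 0 1 * hr - hdet + γ 0 0 * htr
  have k2 : γ 1 0 * p + γ 1 1 * r = r := by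
    apply mul_right_cancel₀ hg'
    linear_combination (-(γ 1 0)) * hp + (1 - γ 1 1) * hr + γ 1 0 * htr
  obtain ⟨δ, hδ0, hδ1⟩ := (Int.isCoprime_iff_gcd_eq_one.mpr hco).exists_SL2_col 0
  set M := δ⁻¹ * γ * δ with hM
  have e0 : M 0 0 = 1 ∧ M 1 0 = 0 := by
    have hdd := δ.det_coe
    rw [Matrix.det_fin_two, hδ0, hδ1] at hdd
    simp only [hM, Matrix.SpecialLinearGroup.coe_mul, Matrix.SpecialLinearGroup.coe_inv,
      Matrix.adjugate_fin_two, Matrix.mul_apply, Fin.sum_univ_two, Matrix.of_apply,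
      Matrix.cons_val', Matrix.cons_val_zero, Matrix.cons_val_one, Matrix.empty_val',
      Matrix.cons_val_fin_one]
    rw [hδ0, hδ1]
    constructor
    · linear_combination (δ 1 1) * k1 - (δ 0 1) * k2 + hdd
    · linear_combination (-r) * k1 + p * k2
  have e1 : M 1 1 = 1 := by
    have := M.det_coe
    rw [Matrix.det_fin_two, e0.1, e0.2] at this
    linarith
  refine ⟨δ, M 0 1, Or.inl ?_⟩
  have : ModularGroup.T ^ (M 0 1) = M := by
    ext i j
    rw [ModularGroup.coe_T_zpow]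
    fin_cases i <;> fin_cases j <;> simp [e0.1, e0.2, e1]
  rw [this, hM]
  group

/-- The periods of a weight two cusp form are a parabolic homomorphism. -/
theorem periodMap_mem_parabolicHoms (N : ℕ) [NeZero N] (f : CuspForm (Gamma0 N) 2) :
    periodMap N f ∈ parabolicHoms ℂ (Gamma0 N) ℂ := by
  intro γ hγ
  obtain ⟨F, hF⟩ := exists_primitive N f
  obtain ⟨δ, n, hn⟩ := exists_conj_eq_T_zpow _ hγ
  obtain ⟨L, hL⟩ := hF.2.2.2 δ
  have hsm : ∀ w : ℍ, (γ : SL(2, ℤ)) • (δ • w) = δ • ((n : ℝ) +ᵥ w) := by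
    intro w
    rw [← modular_T_zpow_smul]
    rcases hn with e | e <;> rw [e]
    · rw [← mul_smul, ← mul_smul]; group
    · rw [ModularGroup.SL_neg_smul, ← mul_smul, ← mul_smul]; group
  have h1 : Tendsto (fun w : ℍ => F ((γ : SL(2, ℤ)) • (δ • w)) - F (δ • w)) atImInfty
      (𝓝 (L - L)) := by
    refine (Tendsto.congr (fun w => by rw [Function.comp_apply, hsm w])
      (hL.comp (?_ : Tendsto (fun w : ℍ => (n : ℝ) +ᵥ w) atImInfty atImInfty))).sub hL
    refine (atImInfty_basis.tendsto_iff atImInfty_basis).mpr fun a _ => ⟨a, trivial, fun w hw => ?_⟩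
    simpa using hw
  rw [sub_self] at h1
  have h2 : Tendsto (fun _ : ℍ => periodMap N f (Additive.ofMul γ)) atImInfty (𝓝 0) :=
    h1.congr fun w => (periodMap_apply N f hF γ (δ • w)).symm
  exact tendsto_nhds_unique tendsto_const_nhds h2

end Fermat.Agent.EichlerShimura
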