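import Fermat.Agent.EichlerShimura.Defs
import Fermat.Prelude.Def_ModularCurve_PeriodMap
import Mathlib.LinearAlgebra.Matrix.FixedDetMatrices
import Mathlib.LinearAlgebra.Dual.Lemmas
import Mathlib.Analysis.Complex.Basic
import Mathlib.NumberTheory.Modular

/-!
# An upper bound for parabolic homomorphisms of `Γ₀(N)`

The dimension of the space of parabolic homomorphisms `Γ₀(N) → ℂ` is bounded by Shapiro's lemma
and linear algebra on `ℂ`-valued functions on `SL(2, ℤ) ⧸ Γ₀(N)`.
-/

set_option autoImplicit false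

noncomputable section

open CongruenceSubgroup ModularCurve.Period
open scoped MatrixGroups

namespace Fermat.Agent.EichlerShimura

local notation "S'" => ModularGroup.S
local notation "T'" => ModularGroup.T

variable (N : ℕ)

/-- The permutation representation of `SL(2, ℤ)` on functions on the cosets. -/
def cosetRep (g : SL(2, ℤ)) : (Cosets N → ℂ) →ₗ[ℂ] (Cosets N → ℂ) :=
  LinearMap.funLeft ℂ ℂ fun x => g⁻¹ • x

variable {N}

/-- `cosetRep` permutes the values. -/
@[simp] theorem cosetRep_apply (g : SL(2, ℤ)) (v : Cosets N → ℂ) (x : Cosets N) :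
    cosetRep N g v x = v (g⁻¹ • x) := rfl

theorem cosetRep_mul (g h : SL(2, ℤ)) (v : Cosets N → ℂ) :
    cosetRep N (g * h) v = cosetRep N g (cosetRep N h v) := by
  funext x; simp [mul_smul]

theorem cosetRep_one (v : Cosets N → ℂ) : cosetRep N 1 v = v := by
  funext x; simp

variable (N)

/-- The functions fixed by `g`. -/
def fixedFun (g : SL(2, ℤ)) : Submodule ℂ (Cosets N → ℂ) :=
  LinearMap.ker (cosetRep N g - LinearMap.id)

variable {N}

/-- Membership in `fixedFun`. -/
theorem mem_fixedFun {g : SL(2, ℤ)} {v : Cosets N → ℂ} :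
    v ∈ fixedFun N g ↔ ∀ x, v (g⁻¹ • x) = v x := by
  simp [fixedFun, sub_eq_zero, funext_iff]

/-- A function fixed by `g` is fixed by the group `g` generates. -/
theorem fixedFun_smul {g : SL(2, ℤ)} {v : Cosets N → ℂ} (hv : v ∈ fixedFun N g)
    (h : SL(2, ℤ)) (hh : h ∈ Subgroup.zpowers g) (x : Cosets N) : v (h • x) = v x := by
  obtain ⟨n, rfl⟩ := hh
  have h1 := mem_fixedFun.mp hv
  induction n generalizing x with
  | zero => simp
  | succ n ih =>
    simp only at ih ⊢
    rw [zpow_add_one, mul_smul, ih]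
    simpa using (h1 (g • x)).symm
  | pred n ih =>
    simp only at ih ⊢
    rw [zpow_sub_one, mul_smul, ih, h1]

variable (N) [NeZero N]

/-- The functions fixed by `g` have dimension the number of orbits of `g` on the cosets. -/
theorem finrank_fixedFun (g : SL(2, ℤ)) :
    Module.finrank ℂ (fixedFun N g) = numOrbits N g := by
  have : Fintype (MulAction.orbitRel.Quotient (Subgroup.zpowers g) (Cosets N)) := Fintype.ofFinite _
  let π : Cosets N → MulAction.orbitRel.Quotient (Subgroup.zpowers g) (Cosets N) := Quotient.mk''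
  have hinj : Function.Injective (LinearMap.funLeft ℂ ℂ π) :=
    LinearMap.funLeft_injective_of_surjective ℂ ℂ π Quotient.mk''_surjective
  have hrange : LinearMap.range (LinearMap.funLeft ℂ ℂ π) = fixedFun N g := by
    ext v
    constructor
    · rintro ⟨w, rfl⟩
      refine mem_fixedFun.mpr fun x => congrArg w ?_
      exact Quotient.sound' ⟨⟨g⁻¹, inv_mem (Subgroup.mem_zpowers g)⟩, rfl⟩
    · intro hv
      refine ⟨Quotient.lift v fun a b hab => ?_, funext fun x => rfl⟩
      obtain ⟨⟨h, hh⟩, rfl⟩ := MulAction.orbitRel_apply.mp hab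
      exact fixedFun_smul hv h hh b
  rw [← hrange, LinearMap.finrank_range_of_inj hinj, Module.finrank_pi, numOrbits,
    Nat.card_eq_fintype_card]

omit [NeZero N] in
/-- The element of `Γ₀(N)` measuring how `g` moves the chosen coset representatives. -/
theorem kappa_mem (g : SL(2, ℤ)) (x : Cosets N) :
    (x.out)⁻¹ * (g * (g⁻¹ • x).out) ∈ Gamma0 N := by
  rw [← QuotientGroup.eq, QuotientGroup.out_eq']
  have : (g⁻¹ • x : Cosets N) = QuotientGroup.mk (g⁻¹ • x).out := (QuotientGroup.out_eq' _).symm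
  calc x = g • (g⁻¹ • x) := (smul_inv_smul g x).symm
    _ = g • QuotientGroup.mk (g⁻¹ • x).out := by rw [← this]
    _ = QuotientGroup.mk (g * (g⁻¹ • x).out) := MulAction.Quotient.smul_mk _ _ _

/-- Shapiro's cocycle attached to a homomorphism on `Γ₀(N)`. -/
def cocycle (g : SL(2, ℤ)) : (Additive (Gamma0 N) →+ ℂ) →ₗ[ℂ] (Cosets N → ℂ) where
  toFun φ x := φ (Additive.ofMul ⟨_, kappa_mem N g x⟩)
  map_add' _ _ := rfl
  map_smul' _ _ := rfl

/-- The coboundary of `v`. -/
def cobdry (g : SL(2, ℤ)) : (Cosets N → ℂ) →ₗ[ℂ] (Cosets N → ℂ) :=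
  cosetRep N g - LinearMap.id

variable {N}

omit [NeZero N] in
/-- The cocycle identity. -/
theorem cocycle_mul (φ : Additive (Gamma0 N) →+ ℂ) (g h : SL(2, ℤ)) :
    cocycle N (g * h) φ = cocycle N g φ + cosetRep N g (cocycle N h φ) := by
  funext x
  show φ _ = φ _ + φ _
  rw [← map_add, ← ofMul_mul]
  refine congrArg (fun y => φ (Additive.ofMul y)) (Subtype.ext ?_)
  show (x.out)⁻¹ * (g * h * ((g * h)⁻¹ • x).out) = ((x.out)⁻¹ * (g * (g⁻¹ • x).out))
    * (((g⁻¹ • x).out)⁻¹ * (h * (h⁻¹ • g⁻¹ • x).out))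
  rw [mul_inv_rev, mul_smul]
  group

omit [NeZero N] in
/-- The cocycle vanishes at `1`. -/
theorem cocycle_one (φ : Additive (Gamma0 N) →+ ℂ) : cocycle N 1 φ = 0 := by
  have := cocycle_mul φ 1 1
  rw [mul_one, cosetRep_one] at this
  exact add_eq_left.mp this.symm

omit [NeZero N] in
/-- A cocycle–coboundary difference vanishing at `S` and `T` vanishes everywhere. -/
theorem cocycle_eq_cobdry {φ : Additive (Gamma0 N) →+ ℂ} {v : Cosets N → ℂ}
    (hS : cocycle N S' φ = cobdry N S' v) (hT : cocycle N T' φ = cobdry N T' v) (g : SL(2, ℤ)) :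
    cocycle N g φ = cobdry N g v := by
  have hg : g ∈ Subgroup.closure ({S', T'} : Set SL(2, ℤ)) := by
    rw [SpecialLinearGroup.SL2Z_generators]; trivial
  induction hg using Subgroup.closure_induction with
  | mem y hy => rcases hy with rfl | rfl <;> assumption
  | one => simp [cocycle_one, cobdry, LinearMap.sub_apply, cosetRep_one]
  | mul a b _ _ ha hb =>
    simp only [cobdry, LinearMap.sub_apply, LinearMap.id_apply] at ha hb ⊢
    rw [cocycle_mul, ha, hb, map_sub, cosetRep_mul]
    abel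
  | inv a _ ha =>
    simp only [cobdry, LinearMap.sub_apply, LinearMap.id_apply] at ha ⊢
    have h1 := cocycle_mul φ a⁻¹ a
    rw [inv_mul_cancel, cocycle_one, ha, map_sub, ← cosetRep_mul,
      inv_mul_cancel, cosetRep_one] at h1
    rw [eq_neg_of_add_eq_zero_left h1.symm]
    abel

omit [NeZero N] in
theorem cocycle_base (φ : Additive (Gamma0 N) →+ ℂ) (γ : Gamma0 N) :
    cocycle N (γ : SL(2, ℤ)) φ (QuotientGroup.mk 1) = φ (Additive.ofMul γ) := by
  set x₀ : Cosets N := QuotientGroup.mk 1 with hx₀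
  have hfix : (γ : SL(2, ℤ))⁻¹ • x₀ = x₀ := by
    rw [hx₀, MulAction.Quotient.smul_mk]
    exact QuotientGroup.eq.mpr (by simp)
  have hout : x₀.out ∈ Gamma0 N := by
    obtain ⟨h, e⟩ := QuotientGroup.mk_out_eq_mul (Gamma0 N) (1 : SL(2, ℤ))
    rw [hx₀, e, one_mul]
    exact h.2
  have : (⟨_, kappa_mem N (γ : SL(2, ℤ)) x₀⟩ : Gamma0 N)
      = (⟨x₀.out, hout⟩ : Gamma0 N)⁻¹ * γ * ⟨x₀.out, hout⟩ := by
    apply Subtype.ext
    show (x₀.out)⁻¹ * ((γ : SL(2, ℤ)) * ((γ : SL(2, ℤ))⁻¹ • x₀).out) = _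
    rw [hfix]
    simp [mul_assoc]
  show φ _ = _
  rw [this, ofMul_mul, ofMul_mul, map_add, map_add, ofMul_inv, map_neg]
  ring

omit [NeZero N] in
theorem eq_zero_of_cocycle_eq_cobdry {φ : Additive (Gamma0 N) →+ ℂ} {v : Cosets N → ℂ}
    (hS : cocycle N S' φ = cobdry N S' v) (hT : cocycle N T' φ = cobdry N T' v) : φ = 0 := by
  refine AddMonoidHom.ext fun γ => ?_
  have h := congrFun (cocycle_eq_cobdry hS hT (γ.toMul : SL(2, ℤ))) (QuotientGroup.mk 1)
  rw [cocycle_base] at h
  rw [← ofMul_toMul γ, h, AddMonoidHom.zero_apply]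
  show v ((γ.toMul : SL(2, ℤ))⁻¹ • (QuotientGroup.mk 1 : Cosets N)) - v (QuotientGroup.mk 1) = 0
  rw [MulAction.Quotient.smul_mk]
  rw [sub_eq_zero]
  exact congrArg v (QuotientGroup.eq.mpr (by simp))

omit [NeZero N] in
theorem apply_eq_base {v : Cosets N → ℂ} (hS : v ∈ fixedFun N S') (hT : v ∈ fixedFun N T')
    (x : Cosets N) : v x = v (QuotientGroup.mk 1) := by
  have key : ∀ g : SL(2, ℤ), ∀ x : Cosets N, v (g • x) = v x := by
    intro g
    have hg : g ∈ Subgroup.closure ({S', T'} : Set SL(2, ℤ)) := by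
      rw [SpecialLinearGroup.SL2Z_generators]; trivial
    induction hg using Subgroup.closure_induction with
    | mem y hy =>
      rcases hy with rfl | rfl
      · exact fixedFun_smul hS _ (Subgroup.mem_zpowers _)
      · exact fixedFun_smul hT _ (Subgroup.mem_zpowers _)
    | one => simp
    | mul a b _ _ ha hb => intro x; rw [mul_smul, ha, hb]
    | inv a _ ha => intro x; simpa using (ha (a⁻¹ • x)).symm
  obtain ⟨g, rfl⟩ := QuotientGroup.mk_surjective x
  rw [← key g (QuotientGroup.mk 1), MulAction.Quotient.smul_mk, smul_eq_mul, mul_one]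

variable (N)

omit [NeZero N] in
/-- `-1` fixes every coset. -/
theorem neg_one_smul (x : Cosets N) : (-1 : SL(2, ℤ)) • x = x := by
  obtain ⟨g, rfl⟩ := QuotientGroup.mk_surjective x
  rw [MulAction.Quotient.smul_mk]
  refine QuotientGroup.eq.mpr ?_
  have : ((-1 : SL(2, ℤ)) • g)⁻¹ * g = -1 := by
    rw [smul_eq_mul, neg_mul, one_mul]; simp
  rw [this, Gamma0_mem]
  simp

variable {N}

omit [NeZero N] in
theorem cosetRep_neg_one (v : Cosets N → ℂ) : cosetRep N (-1) v = v := by
  have e : ((-1 : SL(2, ℤ))⁻¹) = -1 := inv_eq_of_mul_eq_one_right (by simp)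
  funext x
  rw [cosetRep_apply, e, neg_one_smul]

omit [NeZero N] in
theorem cocycle_neg_one {φ : Additive (Gamma0 N) →+ ℂ} (hφ : IsParabolicHom (Gamma0 N) φ) :
    cocycle N (-1) φ = 0 := by
  funext x
  refine hφ _ ?_
  show (((x.out)⁻¹ * ((-1) * ((-1 : SL(2, ℤ))⁻¹ • x).out) : SL(2, ℤ)) :
    Matrix (Fin 2) (Fin 2) ℤ).trace ^ 2 = 4
  have e : ((-1 : SL(2, ℤ))⁻¹) = -1 := inv_eq_of_mul_eq_one_right (by simp)
  rw [e, neg_one_smul, neg_mul, one_mul, mul_neg, inv_mul_cancel,
    Matrix.SpecialLinearGroup.coe_neg, Matrix.SpecialLinearGroup.coe_one, Matrix.trace_neg,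
    Matrix.trace_one]
  norm_num

omit [NeZero N] in
theorem T_pow_smul (x : Cosets N) : (T' ^ N) • x = x := by
  obtain ⟨g, rfl⟩ := QuotientGroup.mk_surjective x
  rw [MulAction.Quotient.smul_mk]
  refine QuotientGroup.eq.mpr ?_
  have hT : T' ^ N ∈ Gamma N := by
    rw [← zpow_natCast, Gamma_mem, ModularGroup.coe_T_zpow]; simp
  have := (Gamma_normal N).conj_mem _ (inv_mem hT) g⁻¹
  rw [smul_eq_mul]
  rw [Gamma_mem] at this
  refine Gamma0_mem.mpr ?_
  rw [mul_inv_rev]
  simpa using this.2.2.1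

omit [NeZero N] in
theorem T_pow_inv_smul (x : Cosets N) : ((T' ^ N)⁻¹) • x = x := by
  conv_lhs => rw [← T_pow_smul x, inv_smul_smul]

omit [NeZero N] in
theorem cocycle_T_pow {φ : Additive (Gamma0 N) →+ ℂ} (hφ : IsParabolicHom (Gamma0 N) φ) :
    cocycle N (T' ^ N) φ = 0 := by
  funext x
  refine hφ _ ?_
  show (((x.out)⁻¹ * (T' ^ N * ((T' ^ N)⁻¹ • x).out) : SL(2, ℤ)) :
    Matrix (Fin 2) (Fin 2) ℤ).trace ^ 2 = 4
  rw [T_pow_inv_smul, Matrix.SpecialLinearGroup.coe_mul, Matrix.trace_mul_comm,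
    ← Matrix.SpecialLinearGroup.coe_mul, mul_assoc, mul_inv_cancel, mul_one, ← zpow_natCast,
    ModularGroup.coe_T_zpow, Matrix.trace_fin_two_of]
  norm_num

variable (N)

/-- The `T`-coboundary witness: `v = N⁻¹ Σ_{i < N} i T^i z`. -/
def witness (z : Cosets N → ℂ) : Cosets N → ℂ :=
  (N : ℂ)⁻¹ • ∑ i ∈ Finset.range N, (i : ℂ) • cosetRep N (T' ^ i) z

variable {N}

theorem cobdry_witness {φ : Additive (Gamma0 N) →+ ℂ} (hφ : IsParabolicHom (Gamma0 N) φ) :
    cobdry N T' (witness N (cocycle N T' φ)) = cocycle N T' φ := by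
  obtain ⟨z, hz⟩ : ∃ z, z = cocycle N T' φ := ⟨_, rfl⟩
  rw [← hz]
  have hpow : ∀ n : ℕ, cocycle N (T' ^ n) φ = ∑ i ∈ Finset.range n, cosetRep N (T' ^ i) z := by
    intro n
    induction n with
    | zero => simp [cocycle_one]
    | succ n ih => rw [pow_succ, cocycle_mul, ih, Finset.sum_range_succ, ← hz]
  have hA : ∑ i ∈ Finset.range N, cosetRep N (T' ^ i) z = 0 := by
    rw [← hpow, cocycle_T_pow hφ]
  have hN' : cosetRep N (T' ^ N) z = z := funext fun x => by rw [cosetRep_apply, T_pow_inv_smul]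
  have htel := Finset.sum_range_sub (fun i : ℕ => (i : ℂ) • cosetRep N (T' ^ i) z) N
  simp only [Nat.cast_zero, zero_smul, sub_zero, hN', Nat.cast_add, Nat.cast_one, add_smul,
    one_smul, Finset.sum_sub_distrib, Finset.sum_add_distrib] at htel
  have hA' : ∑ i ∈ Finset.range N, cosetRep N (T' ^ (i + 1)) z = 0 := by
    simp_rw [pow_succ', cosetRep_mul]
    rw [← map_sum, hA, map_zero]
  rw [hA', add_zero] at htel
  simp only [cobdry, LinearMap.sub_apply, LinearMap.id_apply, witness, map_smul, map_sum]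
  simp only [smul_sub, Finset.sum_sub_distrib]
  rw [← smul_sub]
  have : ∑ i ∈ Finset.range N, (i : ℂ) • cosetRep N T' (cosetRep N (T' ^ i) z)
      - ∑ i ∈ Finset.range N, (i : ℂ) • cosetRep N (T' ^ i) z = (N : ℂ) • z := by
    simp only [pow_succ', cosetRep_mul] at htel
    exact htel
  rw [this, inv_smul_smul₀ (Nat.cast_ne_zero.mpr (NeZero.ne N) : (N : ℂ) ≠ 0)]

variable (N)

/-- A parabolic homomorphism is determined by the values of its cocycle at `S` and `T`. -/
def cocyclePair : parabolicHoms ℂ (Gamma0 N) ℂ →ₗ[ℂ] (Cosets N → ℂ) × (Cosets N → ℂ) :=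
  ((cocycle N S').prod (cocycle N T')).comp (Submodule.subtype _)

omit [NeZero N] in
theorem cocyclePair_injective : Function.Injective (cocyclePair N) := by
  intro φ ψ h
  have h' : ∀ g, cocycle N g (φ.1 - ψ.1) = cocycle N g φ.1 - cocycle N g ψ.1 := fun g => rfl
  refine Subtype.ext (sub_eq_zero.mp (eq_zero_of_cocycle_eq_cobdry (v := 0) ?_ ?_))
  · rw [h', map_zero, sub_eq_zero]; exact congrArg Prod.fst h
  · rw [h', map_zero, sub_eq_zero]; exact congrArg Prod.snd h

instance : FiniteDimensional ℂ (parabolicHoms ℂ (Gamma0 N) ℂ) :=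
  Module.Finite.of_injective (cocyclePair N) (cocyclePair_injective N)

/-- The triples `(c S, c T, v)` with `c` a parabolic cocycle and `c T = T v - v`. -/
def normalised : Submodule ℂ (((Cosets N → ℂ) × (Cosets N → ℂ)) × (Cosets N → ℂ)) :=
  (LinearMap.range (cocyclePair N)).comap (LinearMap.fst ℂ _ _) ⊓
    LinearMap.ker ((LinearMap.snd ℂ _ _).comp (LinearMap.fst ℂ _ _)
      - (cobdry N T').comp (LinearMap.snd ℂ _ _))

/-- The value at `S` of the normalised cocycle. -/
def psi : normalised N →ₗ[ℂ] (Cosets N → ℂ) :=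
  ((LinearMap.fst ℂ _ _).comp (LinearMap.fst ℂ _ _)
    - (cobdry N S').comp (LinearMap.snd ℂ _ _)).comp (Submodule.subtype _)

variable {N}

omit [NeZero N] in
theorem exists_of_mem_normalised {w : ((Cosets N → ℂ) × (Cosets N → ℂ)) × (Cosets N → ℂ)}
    (hw : w ∈ normalised N) : ∃ φ, IsParabolicHom (Gamma0 N) φ ∧ cocycle N S' φ = w.1.1 ∧
      cocycle N T' φ = w.1.2 ∧ w.1.2 = cobdry N T' w.2 := by
  obtain ⟨⟨⟨φ, hφ⟩, h⟩, h2⟩ := hw
  exact ⟨φ, hφ, congrArg Prod.fst h, congrArg Prod.snd h, sub_eq_zero.mp h2⟩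

omit [NeZero N] in
theorem finrank_ker_psi_le : Module.finrank ℂ (LinearMap.ker (psi N)) ≤ 1 := by
  refine le_of_le_of_eq (LinearMap.finrank_le_finrank_of_injective
    (f := (LinearMap.proj (R := ℂ) (φ := fun _ : Cosets N => ℂ) (QuotientGroup.mk 1)).comp
      (((LinearMap.snd ℂ ((Cosets N → ℂ) × (Cosets N → ℂ)) (Cosets N → ℂ)).comp
        (Submodule.subtype (normalised N))).comp (Submodule.subtype _))) ?_)
    (Module.finrank_self ℂ)
  refine (injective_iff_map_eq_zero _).mpr ?_
  rintro ⟨⟨⟨⟨a, b⟩, v⟩, hn⟩, hp⟩ h0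
  obtain ⟨φ, -, ha, hb, hb'⟩ := exists_of_mem_normalised hn
  have hnS : a = cobdry N S' v := sub_eq_zero.mp (LinearMap.mem_ker.mp hp)
  simp only at ha hb hb'
  obtain rfl : φ = 0 := eq_zero_of_cocycle_eq_cobdry (ha.trans hnS) (hb.trans hb')
  rw [map_zero] at ha hb
  subst ha hb
  have hS : v ∈ fixedFun N S' := LinearMap.mem_ker.mpr hnS.symm
  have hT : v ∈ fixedFun N T' := LinearMap.mem_ker.mpr hb'.symm
  obtain rfl : v = 0 := funext fun x => (apply_eq_base hS hT x).trans h0
  rfl

variable (N)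

/-- Parabolic homomorphisms of `Γ₀(N)` form a space of dimension at most twice the genus. -/
theorem finrank_parabolicHoms_add_le :
    Module.finrank ℂ (parabolicHoms ℂ (Gamma0 N) ℂ) + numOrbits N S' + numOrbits N (S' * T')
      + numOrbits N T' ≤ Nat.card (Cosets N) + 2 := by
  classical
  have : Fintype (Cosets N) := Fintype.ofFinite _
  rw [← finrank_fixedFun, ← finrank_fixedFun, ← finrank_fixedFun, Nat.card_eq_fintype_card,
    ← Module.finrank_pi ℂ (ι := Cosets N),
    (LinearEquiv.ofInjective _ (cocyclePair_injective N)).finrank_eq]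
  -- the projection to parabolic cocycles
  let π : normalised N →ₗ[ℂ] (Cosets N → ℂ) × (Cosets N → ℂ) :=
    (LinearMap.fst ℂ _ _).comp (Submodule.subtype _)
  have hπ : LinearMap.range π = LinearMap.range (cocyclePair N) := by
    refine le_antisymm ?_ ?_
    · rintro _ ⟨⟨w, hw⟩, rfl⟩; exact hw.1
    · rintro _ ⟨φ, rfl⟩
      exact ⟨⟨(cocyclePair N φ, witness N (cocycle N T' φ)), ⟨φ, rfl⟩,
        sub_eq_zero.mpr (cobdry_witness φ.2).symm⟩, rfl⟩
  have hker : Module.finrank ℂ (fixedFun N T') ≤ Module.finrank ℂ (LinearMap.ker π) := by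
    refine LinearMap.finrank_le_finrank_of_injective
      (f := LinearMap.codRestrict (LinearMap.ker π)
        (LinearMap.codRestrict (normalised N)
          ((LinearMap.inr ℂ _ _).comp (Submodule.subtype _)) ?_) ?_) ?_
    · intro v
      exact ⟨⟨0, map_zero _⟩, sub_eq_zero.mpr (LinearMap.mem_ker.mp v.2).symm⟩
    · intro v; rfl
    · intro v w h
      exact Subtype.ext (congrArg (fun u : LinearMap.ker π =>
        (u : normalised N).val.2) h)
  have h1 := LinearMap.finrank_range_add_finrank_ker π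
  rw [hπ] at h1
  have h2 := LinearMap.finrank_range_add_finrank_ker (psi N)
  have hconst := finrank_ker_psi_le (N := N)
  -- the range of psi is orthogonal to the fixed functions of S and of ST
  set B := fixedFun N S' ⊔ fixedFun N (S' * T') with hB
  have hann : Module.finrank ℂ (LinearMap.range (psi N))
      ≤ Module.finrank ℂ B.dualAnnihilator := by
    let D : (Cosets N → ℂ) →ₗ[ℂ] Module.Dual ℂ (Cosets N → ℂ) :=
      LinearMap.mk₂ ℂ (fun x y => ∑ i, x i * y i)
        (fun a b c => by simp [add_mul, Finset.sum_add_distrib])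
        (fun r a c => by simp [Finset.mul_sum, mul_assoc])
        (fun a b c => by simp [mul_add, Finset.sum_add_distrib])
        (fun r a c => by simp [Finset.mul_sum, mul_left_comm])
    have hD : Function.Injective D := by
      intro a b h
      funext i
      have := DFunLike.congr_fun h (Pi.single i 1)
      simpa [D, Pi.single_apply] using this
    refine LinearMap.finrank_le_finrank_of_injective
      (f := LinearMap.codRestrict B.dualAnnihilator (D.comp (Submodule.subtype _)) ?_) ?_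
    · rintro ⟨x, ⟨⟨⟨⟨a, b⟩, v⟩, hn⟩, rfl⟩⟩
      obtain ⟨φ, hφ, ha, hb, hb'⟩ := exists_of_mem_normalised hn
      simp only at ha hb hb'
      obtain ⟨d, hd⟩ : ∃ d : SL(2, ℤ) → Cosets N → ℂ,
          d = fun g => cocycle N g φ - cobdry N g v := ⟨_, rfl⟩
      show D (psi N ⟨((a, b), v), hn⟩) ∈ B.dualAnnihilator
      obtain ⟨x, hx⟩ : ∃ x, x = psi N ⟨((a, b), v), hn⟩ := ⟨_, rfl⟩
      rw [← hx]
      have hxS : x = d S' := by simp only [hx, hd, ha]; rfl
      have hdT : d T' = 0 := by simp only [hd, hb]; exact sub_eq_zero.mpr hb'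
      have hmul : ∀ g h, d (g * h) = d g + cosetRep N g (d h) := by
        intro g h
        simp only [hd, cobdry, LinearMap.sub_apply, LinearMap.id_apply, map_sub, cocycle_mul,
          cosetRep_mul]
        abel
      have hd1 : d (-1) = 0 := by
        simp [hd, cobdry, cocycle_neg_one hφ, cosetRep_neg_one]
      have hST : d (S' * T') = x := by rw [hmul, hdT, map_zero, add_zero, hxS]
      have r1 : x + cosetRep N S' x = 0 := by
        rw [hxS, ← hmul, show S' * S' = -1 by ext i j; fin_cases i <;> fin_cases j <;> rfl, hd1]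
      have r2 : x + cosetRep N (S' * T') (x + cosetRep N (S' * T') x) = 0 := by
        have : (S' * T') * ((S' * T') * (S' * T')) = -1 := by
          ext i j; fin_cases i <;> fin_cases j <;> rfl
        rw [← hd1, ← this, hmul (S' * T'), hmul (S' * T') (S' * T'), hST]
      have horth : ∀ g, ∀ y ∈ fixedFun N g, ∀ w : Cosets N → ℂ,
          ∑ i, cosetRep N g w i * y i = ∑ i, w i * y i := by
        intro g y hy w
        refine Fintype.sum_equiv (MulAction.toPerm g⁻¹) _ _ fun i => ?_
        simp [mem_fixedFun.mp hy i]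
      rw [hB, Submodule.dualAnnihilator_sup_eq, Submodule.mem_inf, Submodule.mem_dualAnnihilator,
        Submodule.mem_dualAnnihilator]
      refine ⟨fun y hy => ?_, fun y hy => ?_⟩
      · show ∑ i, x i * y i = 0
        have := congrArg (fun u : Cosets N → ℂ => ∑ i, u i * y i) r1
        simp only [Pi.add_apply, add_mul, Finset.sum_add_distrib, horth _ y hy, Pi.zero_apply,
          zero_mul, Finset.sum_const_zero] at this
        linear_combination this / 2
      · show ∑ i, x i * y i = 0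
        have := congrArg (fun u : Cosets N → ℂ => ∑ i, u i * y i) r2
        simp only [map_add, Pi.add_apply, add_mul, Finset.sum_add_distrib, horth _ y hy,
          Pi.zero_apply, zero_mul, Finset.sum_const_zero] at this
        linear_combination this / 3
    · intro a b h
      exact Subtype.ext (hD (congrArg Subtype.val h))
  have h3 := Subspace.finrank_add_finrank_dualAnnihilator_eq B
  have h4 := Submodule.finrank_sup_add_finrank_inf_eq (fixedFun N S') (fixedFun N (S' * T'))
  have h5 : Module.finrank ℂ ↥(fixedFun N S' ⊓ fixedFun N (S' * T')) ≤ 1 := by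
    refine le_of_le_of_eq (LinearMap.finrank_le_finrank_of_injective
      (f := (LinearMap.proj (R := ℂ) (φ := fun _ : Cosets N => ℂ) (QuotientGroup.mk 1)).comp
        (Submodule.subtype _)) ?_) (Module.finrank_self ℂ)
    rw [← LinearMap.ker_eq_bot, Submodule.eq_bot_iff]
    rintro ⟨v, hS, hU⟩ h0
    have hT : v ∈ fixedFun N T' := by
      refine mem_fixedFun.mpr fun x => ?_
      have a := mem_fixedFun.mp hU (S' • x)
      rw [mul_inv_rev, mul_smul, inv_smul_smul] at a
      rw [a]
      exact fixedFun_smul hS _ (Subgroup.mem_zpowers _) x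
    exact Subtype.ext (funext fun x => (apply_eq_base hS hT x).trans h0)
  rw [← hB] at h4
  omega

end Fermat.Agent.EichlerShimura
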