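import Fermat.Agent.EichlerShimura.Injective
import Fermat.Agent.EichlerShimura.Cocycle
import Mathlib.LinearAlgebra.Dimension.Constructions

/-!
# The Eichler–Shimura isomorphism

A lower bound for `dim S₂(Γ₀(N))` by the orbit counts on the cosets makes the period map an
isomorphism from `S₂(Γ₀(N)) × S₂(Γ₀(N))` to the parabolic homomorphisms.
-/

set_option autoImplicit false

noncomputable section

open CongruenceSubgroup ModularCurve ModularCurve.Period
open scoped MatrixGroups

namespace Fermat.Agent.EichlerShimura

variable (N : ℕ) [NeZero N]

/-- `periodHomPair`, with values in the parabolic homomorphisms. -/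
def periodToParabolic :
    (CuspForm (Gamma0 N) 2 × CuspForm (Gamma0 N) 2) →ₗ[ℂ] parabolicHoms ℂ (Gamma0 N) ℂ :=
  LinearMap.codRestrict _ (periodHomPair N) (periodHomPair_mem_parabolicHoms N)

theorem periodToParabolic_injective : Function.Injective (periodToParabolic N) :=
  fun _ _ h => periodHomPair_injective N (congrArg Subtype.val h)

/-- `S₂(Γ₀(N))` is finite dimensional. -/
theorem finiteDimensional_cuspForm_two : FiniteDimensional ℂ (CuspForm (Gamma0 N) 2) :=
  Module.Finite.of_injective
    ((periodToParabolic N).comp (LinearMap.inl ℂ _ _))
    ((periodToParabolic_injective N).comp fun _ _ h => congrArg Prod.fst h)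

/-- Eichler–Shimura, given the dimension lower bound for weight-two cusp forms. -/
theorem eichlerShimura_of_le
    (h : Nat.card (Cosets N) + 2 ≤ 2 * Module.finrank ℂ (CuspForm (Gamma0 N) 2)
      + numOrbits N ModularGroup.S + numOrbits N (ModularGroup.S * ModularGroup.T)
      + numOrbits N ModularGroup.T) :
    Function.Injective (periodHomPair N) ∧
      LinearMap.range (periodHomPair N) = parabolicHoms ℂ (Gamma0 N) ℂ := by
  have := finiteDimensional_cuspForm_two N
  refine ⟨periodHomPair_injective N, le_antisymm ?_ ?_⟩
  · rintro _ ⟨p, rfl⟩
    exact periodHomPair_mem_parabolicHoms N p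
  · have hsurj : Function.Surjective (periodToParabolic N) := by
      rw [← LinearMap.range_eq_top]
      apply Submodule.eq_top_of_finrank_eq
      rw [LinearMap.finrank_range_of_inj (periodToParabolic_injective N), Module.finrank_prod]
      have h1 := LinearMap.finrank_le_finrank_of_injective (periodToParabolic_injective N)
      rw [Module.finrank_prod] at h1
      have h2 := finrank_parabolicHoms_add_le N
      omega
    intro φ hφ
    obtain ⟨p, hp⟩ := hsurj ⟨φ, hφ⟩
    exact ⟨p, congrArg Subtype.val hp⟩

end Fermat.Agent.EichlerShimura
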