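import Mathlib.NumberTheory.ModularForms.CongruenceSubgroups
import Mathlib.GroupTheory.GroupAction.Quotient

/-!
# Cosets of `Γ₀(N)` and their orbit counts

The coset space `SL(2, ℤ) ⧸ Γ₀(N)` and the number of orbits of a cyclic subgroup on it, as used
in the Eichler–Shimura isomorphism and in the dimension of `S₂(Γ₀(N))`.
-/

set_option autoImplicit false

open CongruenceSubgroup
open scoped MatrixGroups

namespace Fermat.Agent.EichlerShimura

/-- The coset space `SL(2, ℤ) ⧸ Γ₀(N)`, with the action of `SL(2, ℤ)` by left translation. -/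
abbrev Cosets (N : ℕ) := SL(2, ℤ) ⧸ Gamma0 N

/-- The number of orbits of the cyclic group generated by `g` on the cosets of `Γ₀(N)`. -/
noncomputable def numOrbits (N : ℕ) (g : SL(2, ℤ)) : ℕ :=
  Nat.card (MulAction.orbitRel.Quotient (Subgroup.zpowers g) (Cosets N))

end Fermat.Agent.EichlerShimura
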