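import Fermat.Agent.EichlerShimura.Defs
import Fermat.Agent.EichlerShimura.Primitive
import Mathlib.Analysis.Complex.AbsMax
import Mathlib.NumberTheory.Modular

/-!
# Injectivity of the Eichler–Shimura period map

By the maximum modulus principle, a holomorphic function on `ℍ` with purely imaginary periods
along `Γ₀(N)` and a limit at every cusp is constant.
-/

set_option autoImplicit false

noncomputable section

open UpperHalfPlane hiding I
open Complex Filter Topology CongruenceSubgroup ModularCurve ModularCurve.Period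
open scoped MatrixGroups Manifold ModularForm Real ComplexConjugate Modular

namespace Fermat.Agent.EichlerShimura

local notation "𝕢" => Function.Periodic.qParam

variable (N : ℕ) [NeZero N]

/-- A holomorphic function on `ℍ` with purely imaginary periods along `Γ₀(N)` and a limit at every
cusp is constant. -/
theorem eq_const_of_re_periods_eq_zero (G : ℍ → ℂ) (hG : MDiff G)
    (hper : ∀ γ ∈ Gamma0 N, ∃ c : ℂ, c.re = 0 ∧ ∀ τ, G (γ • τ) = G τ + c)
    (hlim : ∀ δ : SL(2, ℤ), ∃ L : ℂ, Tendsto (fun τ : ℍ => G (δ • τ)) atImInfty (𝓝 L)) :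
    ∀ τ : ℍ, G τ = G UpperHalfPlane.I := by
  classical
  have hN : (0 : ℝ) < N := by exact_mod_cast NeZero.pos N
  let d : Cosets N → SL(2, ℤ) := fun x => (x.out)⁻¹
  let f : Cosets N → ℍ → ℂ := fun x τ => cexp (G (d x • τ))
  let K : Cosets N → ℂ → ℂ := fun x => cuspFunction (N : ℝ) (f x)
  have hcomp : ∀ δ : SL(2, ℤ), MDiff (fun τ : ℍ => G (δ • τ)) := fun δ =>
    hG.comp (mdifferentiable_smul (g := (δ : GL (Fin 2) ℝ))
      (by
        have : ((δ : GL (Fin 2) ℝ) : Matrix (Fin 2) (Fin 2) ℝ).det = 1 :=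
          (Matrix.SpecialLinearGroup.map (Int.castRingHom ℝ) δ).det_coe
        simp only [Matrix.GeneralLinearGroup.val_det_apply, this, zero_lt_one]))
  have hper' : ∀ x τ, f x (ModularGroup.T ^ (N : ℤ) • τ) = f x τ := by
    intro x τ
    obtain ⟨c, -, hc⟩ := hper _ (conj_T_pow_mem_Gamma0 N (d x))
    have h1 : ∀ w, G (d x • ModularGroup.T ^ (N : ℤ) • w) = G (d x • w) + c := by
      intro w
      rw [← hc, ← mul_smul, ← mul_smul]
      group
    obtain ⟨L, hL⟩ := hlim (d x)
    have hT : Tendsto (fun w : ℍ => ModularGroup.T ^ (N : ℤ) • w) atImInfty atImInfty := by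
      refine (atImInfty_basis.tendsto_iff atImInfty_basis).mpr
        fun a _ => ⟨a, trivial, fun w hw => ?_⟩
      rw [Set.mem_preimage, modular_T_zpow_smul]
      simpa using hw
    have : c = 0 := by
      have := tendsto_nhds_unique (hL.comp hT)
        ((hL.add_const c).congr fun w => (h1 w).symm)
      simpa using this.symm
    simp only [f, h1, this, add_zero]
  have hperiodic : ∀ x, Function.Periodic (f x ∘ ofComplex) (N : ℝ) := by
    intro x w
    by_cases hw : 0 < w.im
    · have hw' : 0 < (w + ((N : ℝ) : ℂ)).im := by simpa using hw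
      simp only [Function.comp_apply, ofComplex_apply_of_im_pos hw, ofComplex_apply_of_im_pos hw']
      rw [← hper' x ⟨w, hw⟩, modular_T_zpow_smul]
      refine congrArg _ (UpperHalfPlane.ext ?_)
      simp [add_comm]
    · have hw' : (w + ((N : ℝ) : ℂ)).im ≤ 0 := by simpa using hw
      simp only [Function.comp_apply, ofComplex_apply_of_im_nonpos hw',
        ofComplex_apply_of_im_nonpos (not_lt.mp hw)]
  have hfd : ∀ x, MDiff (f x) := fun x => by
    have h := UpperHalfPlane.mdifferentiable_iff.mp (hcomp (d x))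
    exact UpperHalfPlane.mdifferentiable_iff.mpr h.cexp
  have hKd : ∀ x, DifferentiableOn ℂ (K x) (Metric.ball 0 1) := by
    intro x
    refine differentiableOn_cuspFunction_ball hN (hperiodic x) (hfd x) ?_
    obtain ⟨L, hL⟩ := hlim (d x)
    exact ((Complex.continuous_exp.tendsto L).comp hL).isBigO_one ℝ
  have hKq : ∀ x (τ : ℍ), K x (𝕢 (N : ℝ) τ) = f x τ := fun x τ =>
    eq_cuspFunction τ hN.ne' (hperiodic x)
  set R : ℝ := Real.exp (-π / N) with hR
  have hR0 : 0 ≤ R := (Real.exp_pos _).le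
  have hR1 : R < 1 := Real.exp_lt_one_iff.mpr (div_neg_of_neg_of_pos (by linarith [Real.pi_pos]) hN)
  have hsub : Metric.closedBall (0 : ℂ) R ⊆ Metric.ball 0 1 := Metric.closedBall_subset_ball hR1
  have hmax : ∀ x, ∃ q ∈ Metric.closedBall (0 : ℂ) R,
      IsMaxOn (fun q => ‖K x q‖) (Metric.closedBall (0 : ℂ) R) q := fun x =>
    (isCompact_closedBall _ _).exists_isMaxOn (Metric.nonempty_closedBall.mpr hR0)
      ((hKd x).continuousOn.mono hsub).norm
  choose qx hqx hqmax using hmax
  obtain ⟨x₀, hx₀⟩ := Finite.exists_max fun x => ‖K x (qx x)‖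
  set M := ‖K x₀ (qx x₀)‖ with hM
  have hin : ∀ x, ∀ q ∈ Metric.closedBall (0 : ℂ) R, ‖K x q‖ ≤ M := fun x q hq =>
    (hqmax x hq).trans (hx₀ x)
  have hglob : ∀ τ : ℍ, ‖cexp (G τ)‖ ≤ M := by
    intro τ
    obtain ⟨σ, hσ⟩ := ModularGroup.exists_one_half_le_im_smul τ
    set x : Cosets N := QuotientGroup.mk σ with hx
    have hγ : (x.out)⁻¹ * σ ∈ Gamma0 N := by
      rw [← QuotientGroup.eq, QuotientGroup.out_eq']
    obtain ⟨c, hc0, hc⟩ := hper _ hγ
    have hq : 𝕢 (N : ℝ) ↑(σ • τ) ∈ Metric.closedBall (0 : ℂ) R := by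
      rw [mem_closedBall_zero_iff, Function.Periodic.norm_qParam, hR]
      apply Real.exp_le_exp.mpr
      apply div_le_div_of_nonneg_right _ hN.le
      nlinarith [Real.pi_pos, show (1 / 2 : ℝ) ≤ (↑(σ • τ) : ℂ).im from hσ]
    have := hin x _ hq
    rw [hKq] at this
    simp only [f, d] at this
    rw [← mul_smul, hc, Complex.exp_add, norm_mul, Complex.norm_exp c, hc0, Real.exp_zero,
      mul_one] at this
    exact this
  have hball : IsMaxOn (norm ∘ K x₀) (Metric.ball 0 1) (qx x₀) := by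
    intro q hq
    show ‖K x₀ q‖ ≤ ‖K x₀ (qx x₀)‖
    rcases eq_or_ne q 0 with rfl | hq0
    · exact hin x₀ 0 (Metric.mem_closedBall_self hR0)
    · have him := Function.Periodic.im_invQParam_pos_of_norm_lt_one hN
        (mem_ball_zero_iff.mp hq) hq0
      rw [← Function.Periodic.qParam_right_inv hN.ne' hq0, ← UpperHalfPlane.coe_mk _ him, hKq]
      exact hglob _
  have hconst := Complex.eqOn_of_isPreconnected_of_isMaxOn_norm
    (convex_ball (0 : ℂ) 1).isPreconnected Metric.isOpen_ball (hKd x₀) (hsub (hqx x₀)) hball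
  set h : ℂ → ℂ := (fun τ : ℍ => G (d x₀ • τ)) ∘ ofComplex with hh
  have hhd : DifferentiableOn ℂ h {z | 0 < z.im} :=
    UpperHalfPlane.mdifferentiable_iff.mp (hcomp _)
  have hval : ∀ z ∈ {z : ℂ | 0 < z.im}, cexp (h z) = K x₀ (qx x₀) := by
    intro z hz
    have := hconst (x := 𝕢 (N : ℝ) z)
      (mem_ball_zero_iff.mpr (Function.Periodic.norm_qParam_lt_one hN hz))
    rw [← UpperHalfPlane.coe_mk z hz, hKq, Function.const_apply] at this
    rw [← this]
    simp [hh, f, ofComplex_apply_of_im_pos hz]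
  have hderiv : Set.EqOn (deriv h) 0 {z | 0 < z.im} := by
    intro z hz
    have hn := isOpen_upperHalfPlaneSet.mem_nhds hz
    have h1 := (hhd.differentiableAt hn).hasDerivAt.cexp
    have h2 : HasDerivAt (fun w => cexp (h w)) 0 z :=
      (hasDerivAt_const z (K x₀ (qx x₀))).congr_of_eventuallyEq
        (Filter.eventuallyEq_of_mem hn hval)
    exact (mul_eq_zero.mp (h1.unique h2)).resolve_left (Complex.exp_ne_zero _)
  have key := fun (a b : ℍ) => isOpen_upperHalfPlaneSet.is_const_of_deriv_eq_zero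
    (convex_halfSpace_im_gt 0).isPreconnected hhd hderiv a.im_pos b.im_pos
  intro τ
  have := key ((d x₀)⁻¹ • τ) ((d x₀)⁻¹ • UpperHalfPlane.I)
  simpa [hh, ofComplex_apply, smul_inv_smul] using this

/-- `τ ↦ conj (G (-conj τ))`. -/
def conjFun (G : ℍ → ℂ) (τ : ℍ) : ℂ := conj (G (UpperHalfPlane.J • τ))

/-- `conjFun` preserves holomorphy. -/
theorem mdifferentiable_conjFun {G : ℍ → ℂ} (hG : MDiff G) : MDiff (conjFun G) := by
  have h := hG.slash 0 UpperHalfPlane.J
  have e : (G ∣[(0 : ℤ)] UpperHalfPlane.J) = conjFun G := by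
    funext τ
    simp [ModularForm.slash_def, conjFun]
  rwa [e] at h

/-- Conjugation by `J` intertwines `γ` and `jConjSL γ`. -/
theorem jConj_smul_J (γ : SL(2, ℤ)) (τ : ℍ) :
    jConjSL γ • (UpperHalfPlane.J • τ) = UpperHalfPlane.J • (γ • τ) := by
  have : ((jConjSL γ : SL(2, ℤ)) : GL (Fin 2) ℝ) * UpperHalfPlane.J
      = UpperHalfPlane.J * (γ : GL (Fin 2) ℝ) := by
    apply Units.ext
    ext i j
    fin_cases i <;> fin_cases j <;> simp [Matrix.mul_apply, Fin.sum_univ_two]
  rw [ModularGroup.sl_moeb, ModularGroup.sl_moeb, ← mul_smul, this, mul_smul]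

/-- Limits at cusps pass to `conjFun`. -/
theorem tendsto_conjFun {G : ℍ → ℂ} (δ : SL(2, ℤ)) {L : ℂ}
    (hL : Tendsto (fun τ : ℍ => G (jConjSL δ • τ)) atImInfty (𝓝 L)) :
    Tendsto (fun τ : ℍ => conjFun G (δ • τ)) atImInfty (𝓝 (conj L)) := by
  have hJ : Tendsto (fun τ : ℍ => UpperHalfPlane.J • τ) atImInfty atImInfty :=
    tendsto_smul_atImInfty (by simp)
  refine ((Complex.continuous_conj.tendsto L).comp (hL.comp hJ)).congr fun τ => ?_
  show conj (G (jConjSL δ • (UpperHalfPlane.J • τ))) = conj (G (UpperHalfPlane.J • (δ • τ)))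
  rw [jConj_smul_J]

/-- If the periods of `f` are an eigenvector (with eigenvalue `∓ 1`) of the involution, `f = 0`. -/
theorem eq_zero_of_periods_eq (f : CuspForm (Gamma0 N) 2) (ε : ℝ) (hε : ε = 1 ∨ ε = -1)
    (h : ∀ γ : Gamma0 N, periodMap N f (Additive.ofMul γ)
      = (ε : ℂ) * periodMap N f (Additive.ofMul (jConjGamma0 N γ))) : f = 0 := by
  obtain ⟨F, hF⟩ := exists_primitive N f
  have hFd : MDiff F := isPrim_mdifferentiable (g := ⇑f) hF.1
  have hcd := mdifferentiable_conjFun hFd
  have main : ∀ (a : ℂ) (e : ℝ), (∀ c : ℂ, (a * (c + (e : ℂ) * conj ((ε : ℂ) * c))).re = 0) →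
      ∀ τ, a * (F τ + (e : ℂ) * conjFun F τ)
        = a * (F UpperHalfPlane.I + (e : ℂ) * conjFun F UpperHalfPlane.I) := by
    intro a e ha
    refine eq_const_of_re_periods_eq_zero N (fun τ => a * (F τ + (e : ℂ) * conjFun F τ))
      ?_ ?_ ?_
    · refine UpperHalfPlane.mdifferentiable_iff.mpr ?_
      exact ((UpperHalfPlane.mdifferentiable_iff.mp hFd).add
        ((UpperHalfPlane.mdifferentiable_iff.mp hcd).const_mul (e : ℂ))).const_mul a
    · intro γ hγ
      refine ⟨a * (periodMap N f (Additive.ofMul ⟨γ, hγ⟩)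
        + (e : ℂ) * conj ((ε : ℂ) * periodMap N f (Additive.ofMul ⟨γ, hγ⟩))), ha _, fun τ => ?_⟩
      have h1 := periodMap_apply N f hF ⟨γ, hγ⟩ τ
      have h2 : conjFun F (γ • τ) = conjFun F τ
          + conj (periodMap N f (Additive.ofMul (jConjGamma0 N ⟨γ, hγ⟩))) := by
        rw [periodMap_apply N f hF _ (UpperHalfPlane.J • τ), jConjGamma0_coe, jConj_smul_J,
          conjFun, conjFun]
        simp
      have h3 := h (jConjGamma0 N ⟨γ, hγ⟩)
      rw [jConjGamma0_jConjGamma0] at h3
      simp only [h2, h3]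
      linear_combination (-a) * h1
    · intro δ
      obtain ⟨L, hL⟩ := hF.2.2.2 δ
      obtain ⟨L', hL'⟩ := hF.2.2.2 (jConjSL δ)
      exact ⟨_, (hL.add ((tendsto_conjFun δ hL').const_mul (e : ℂ))).const_mul a⟩
  have hm := main 1 (-ε) (by
    intro c; rcases hε with rfl | rfl <;> simp)
  have hp := main I ε (by
    intro c; rcases hε with rfl | rfl <;> simp)
  have hconst : ∀ τ, F τ = F UpperHalfPlane.I := by
    intro τ
    have e1 := hm τ
    have e2 := mul_left_cancel₀ I_ne_zero (hp τ)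
    push_cast at e1
    linear_combination (1 / 2 : ℂ) * e1 + (1 / 2 : ℂ) * e2
  ext τ
  have : HasDerivAt (F ∘ ofComplex) 0 (τ : ℂ) :=
    (hasDerivAt_const _ (F UpperHalfPlane.I)).congr_of_eventuallyEq
      (Eventually.of_forall fun z => hconst _)
  exact (hF.1 τ).unique this

/-- The value of the period map of a pair at `γ`. -/
theorem periodHomPair_apply (p : CuspForm (Gamma0 N) 2 × CuspForm (Gamma0 N) 2) (γ : Gamma0 N) :
    periodHomPair N p (Additive.ofMul γ)
      = periodMap N p.1 (Additive.ofMul γ) + periodMap N p.1 (Additive.ofMul (jConjGamma0 N γ))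
        + (periodMap N p.2 (Additive.ofMul γ)
          - periodMap N p.2 (Additive.ofMul (jConjGamma0 N γ))) := by
  obtain ⟨pml, hpml, e⟩ := periodHomPair_def N (existsPeriodMapLinear N)
  simp [e, hpml]

/-- The Eichler–Shimura period map is injective. -/
theorem periodHomPair_injective : Function.Injective (periodHomPair N) := by
  rw [← LinearMap.ker_eq_bot, Submodule.eq_bot_iff]
  rintro ⟨f, g⟩ hfg
  rw [LinearMap.mem_ker] at hfg
  have h1 : ∀ γ, _ := fun γ =>
    (periodHomPair_apply N (f, g) γ).symm.trans (DFunLike.congr_fun hfg _)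
  simp only [AddMonoidHom.zero_apply] at h1
  have hf : f = 0 := eq_zero_of_periods_eq N f (-1) (Or.inr rfl) fun γ => by
    have a := h1 γ
    have b := h1 (jConjGamma0 N γ)
    simp only [jConjGamma0_jConjGamma0] at a b
    push_cast
    linear_combination (1 / 2 : ℂ) * a + (1 / 2 : ℂ) * b
  have hg : g = 0 := eq_zero_of_periods_eq N g 1 (Or.inl rfl) fun γ => by
    have a := h1 γ
    have b := h1 (jConjGamma0 N γ)
    simp only [jConjGamma0_jConjGamma0] at a b
    push_cast
    linear_combination (1 / 2 : ℂ) * a - (1 / 2 : ℂ) * b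
  rw [hf, hg, Prod.mk_zero_zero]

/-- The periods of a pair of cusp forms are a parabolic homomorphism. -/
theorem periodHomPair_mem_parabolicHoms
    (p : CuspForm (Gamma0 N) 2 × CuspForm (Gamma0 N) 2) :
    periodHomPair N p ∈ parabolicHoms ℂ (Gamma0 N) ℂ := by
  obtain ⟨pml, hpml, e⟩ := periodHomPair_def N (existsPeriodMapLinear N)
  have hP : ∀ f, pml f ∈ parabolicHoms ℂ (Gamma0 N) ℂ := fun f => by
    rw [hpml]; exact periodMap_mem_parabolicHoms N f
  rw [e]
  simp only [LinearMap.coprod_apply, LinearMap.comp_apply, LinearMap.add_apply,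
    LinearMap.sub_apply, LinearMap.id_apply]
  exact add_mem (add_mem (hP _) (charInvolution_mem_parabolicHoms N ℂ ℂ (hP _)))
    (sub_mem (hP _) (charInvolution_mem_parabolicHoms N ℂ ℂ (hP _)))

end Fermat.Agent.EichlerShimura
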